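import Fermat.Agent.S37.Skeleton

/-!
# P-RED: the torsion gate (function form) and its consumers

Primary route to `EichlerShimuraTorsion` (P-GALREP) and to `S18`
(findings 396, helper26): everything is reduced to the **gate**

  `w ∈ F_N^×`, `r ∣ ord_v w` for all places `v`, `w ≡ 1` modulo the Gauss valuation over `A`
  `⟹ w` is an `r`-th power in `F_N`.

This file freezes the statements.  Every declaration is a `def … : Prop`.
-/

set_option autoImplicit false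

open AlgebraicCurve ModularCurve IntermediateField

noncomputable section

namespace Fermat.Agent.S37

/-- `w ≡ 1` modulo the maximal ideal of the Gauss valuation attached to `A`:
`w = a / b` with `a, b ∈ A((q))`, `b ≢ 0` and `a ≡ b` modulo `𝔪_A`. -/
def CongOne {N : ℕ} (A : ValuationSubring Kbar) (w : FF N) : Prop :=
  ∃ a b : LaurentSeries A,
    coeffMap (IsLocalRing.residue A) b ≠ 0 ∧
    coeffMap A.subtype a = (w : LaurentSeries Kbar) * coeffMap A.subtype b ∧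
    coeffMap (IsLocalRing.residue A) a = coeffMap (IsLocalRing.residue A) b

/-- **GATE** for a prime exponent `r ≠ ℓ` at level `N`. -/
def GatePrime (N : ℕ) [NeZero N] : Prop :=
  ∀ ℓ : ℕ, ℓ.Prime → ¬ ℓ ∣ N → ∀ A : ValuationSubring Kbar, A.LiesOverPrime ℓ →
    ∀ r : ℕ, r.Prime → r ≠ ℓ → ∀ w : FF N, w ≠ 0 →
      (∀ v : Place Kbar (FF N), (r : ℤ) ∣ v.ord w) → CongOne A w → ∃ h : FF N, h ^ r = w

/-- **GATE** for every exponent `m` prime to `ℓ`. -/
def Gate (N : ℕ) [NeZero N] : Prop :=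
  ∀ ℓ : ℕ, ℓ.Prime → ¬ ℓ ∣ N → ∀ A : ValuationSubring Kbar, A.LiesOverPrime ℓ →
    ∀ m : ℕ, ¬ ℓ ∣ m → ∀ w : FF N, w ≠ 0 →
      (∀ v : Place Kbar (FF N), (m : ℤ) ∣ v.ord w) → CongOne A w → ∃ h : FF N, h ^ m = w

/-- **GATE at good levels** (the geometric heart). -/
def GateGood : Prop :=
  ∀ ℓ : ℕ, ℓ.Prime → ∀ (M : ℕ) [NeZero M], ¬ ℓ ∣ M → auxLevel ℓ ∣ M →
    ∀ A : ValuationSubring Kbar, A.LiesOverPrime ℓ →
    ∀ r : ℕ, r.Prime → r ≠ ℓ → ∀ w : FF M, w ≠ 0 →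
      (∀ v : Place Kbar (FF M), (r : ℤ) ∣ v.ord w) → CongOne A w → ∃ h : FF M, h ^ r = w

/-- **DESC (descent of roots from the good level).**  An element of `F_N` whose divisor is
divisible by the prime `r` and which is an `r`-th power in `F_M`, `M` the good level above
`N`, is an `r`-th power in `F_N` (a cusp of `F_M / F_N` has ramification index `> deg / 2`). -/
def IfaceGateDescent : Prop :=
  ∀ (ℓ N : ℕ) [NeZero N] (r : ℕ), r.Prime → ∀ w : FF N, w ≠ 0 →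
    (∀ v : Place Kbar (FF N), (r : ℤ) ∣ v.ord w) →
    (∃ h : FF (goodLevel ℓ N), h ^ r = degen (dvd_goodLevel ℓ N) w) → ∃ h : FF N, h ^ r = w

/-- **NORMALIZE (only for S37).**  At a good level, a function whose divisor is `r` times a
divisor of `redKer` can be scaled by a constant to be `≡ 1`. -/
def IfaceNormalize : Prop :=
  ∀ ℓ : ℕ, ℓ.Prime → ∀ (M : ℕ) [NeZero M], ¬ ℓ ∣ M → auxLevel ℓ ∣ M →
    ∀ A : ValuationSubring Kbar, A.LiesOverPrime ℓ →
    ∀ r : ℕ, r.Prime → r ≠ ℓ → ∀ D : Divisor Kbar (FF M), D ∈ redKer M A →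
      ∀ u : FF M, u ≠ 0 → (∀ v : Place Kbar (FF M), v.ord u = r * D v) →
        ∃ c : Kbar, c ≠ 0 ∧ CongOne A (cst M c * u)

/-- **EST-I.**  For `σ` in the inertia group at `A`, every nonzero function can be scaled so
that `σ u / u ≡ 1`. -/
def IfaceCongInertia (N : ℕ) [NeZero N] : Prop :=
  ∀ ℓ : ℕ, ℓ.Prime → ¬ ℓ ∣ N → ∀ A : ValuationSubring Kbar, A.LiesOverPrime ℓ →
    ∀ σ ∈ A.inertiaSubgroupIn ℚ, ∀ u : FF N, u ≠ 0 →
      ∃ c : Kbar, c ≠ 0 ∧ CongOne A ((gal N σ • (cst N c * u)) / (cst N c * u))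

/-- **EST-F (Kronecker congruence, function form).**  For a Frobenius `σ` at `A` over `ℓ ∤ N`,
every nonzero `u` can be scaled so that
`Norm_α (β u) / (σ u · (σ⁻¹ u) ^ ℓ) ≡ 1`, where the norm is taken along
`α : F_N → F_{Nℓ}`. -/
def IfaceCongFrobenius (N : ℕ) [NeZero N] : Prop :=
  ∀ (ℓ : ℕ) (hℓ : ℓ.Prime), ¬ ℓ ∣ N →
    ∀ A : ValuationSubring Kbar, A.LiesOverPrime ℓ → ∀ σ : GQ, A.IsFrobeniusAt σ ℓ →
    haveI : NeZero ℓ := ⟨hℓ.ne_zero⟩
    ∀ u : FF N, u ≠ 0 → ∃ c : Kbar, c ≠ 0 ∧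
      CongOne A
        ((letI := algebraAlong (heckeAlphaBar Kbar N ℓ)
          Algebra.norm (FF N) (heckeBetaBar Kbar N ℓ (cst N c * u))) /
          ((gal N σ • (cst N c * u)) * (gal N σ⁻¹ • (cst N c * u)) ^ ℓ))

end Fermat.Agent.S37
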