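import Fermat.Agent.S24.Interfaces
import Fermat.Prelude.Def_ModularCurve_HeckeModule

/-!
# P-RED (reduction of `X₀(M)` modulo `ℓ`): shared definitions

Architect: helper37.  `K = ℚ̄`, `F = FF M ⊆ K((q))` the function field of `X₀(M)` over `ℚ̄`,
`A` a valuation subring of `ℚ̄` over the prime `ℓ`.

* `modelFin M A`, `modelInf M A` : the two affine charts of the normal model over `A`
  (elements of `F` integral over `A[j]`, resp. `A[1/j]`).
* `SameRed A v w` : the places `v`, `w` of `F` have the same reduction modulo `𝔪_A`.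
* `redKer M A` : divisors generated by `v - w` with `SameRed A v w`.
-/

set_option autoImplicit false

open AlgebraicCurve ModularCurve IntermediateField

noncomputable section

namespace Fermat.Agent.S37

/-- `K = ℚ̄`. -/
abbrev Kbar : Type := AlgebraicClosure ℚ

/-- the absolute Galois group of `ℚ`. -/
abbrev GQ : Type := Kbar ≃ₐ[ℚ] Kbar

/-- the function field of `X₀(M)` over `ℚ̄`. -/
abbrev FF (M : ℕ) : Type := ↥(modularFunctionFieldBar M)

/-- the constant `c`. -/
abbrev cst (M : ℕ) (c : Kbar) : FF M := algebraMap Kbar (FF M) c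

/-- the `j`-function in `FF M`. -/
abbrev jB (M : ℕ) [NeZero M] : FF M := Fermat.Agent.S24.jBar M

/-- the Galois action on `FF M` (coefficientwise on `q`-expansions). -/
abbrev gal (M : ℕ) (σ : GQ) : SemilinearAut Kbar (FF M) :=
  arithmeticGalois (modularFunctionFieldFull M) σ

/-- the subring `A[x] ⊆ FF M`. -/
def ringAdj (M : ℕ) (A : ValuationSubring Kbar) (x : FF M) : Subring (FF M) :=
  Subring.closure ((fun a : Kbar => cst M a) '' (A : Set Kbar) ∪ {x})

/-- elements of `FF M` integral over `A[x]`. -/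
def modelAt (M : ℕ) (A : ValuationSubring Kbar) (x : FF M) : Subring (FF M) :=
  (integralClosure (ringAdj M A x) (FF M)).toSubring

/-- the finite chart: elements of `FF M` integral over `A[j]`. -/
def modelFin (M : ℕ) [NeZero M] (A : ValuationSubring Kbar) : Subring (FF M) :=
  modelAt M A (jB M)

/-- the chart at infinity: elements of `FF M` integral over `A[1/j]`. -/
def modelInf (M : ℕ) [NeZero M] (A : ValuationSubring Kbar) : Subring (FF M) :=
  modelAt M A (jB M)⁻¹

/-- `f` takes the value `a` at the place `v` (`f - a ∈ 𝔪_v`). -/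
def ValueAt {M : ℕ} (v : Place Kbar (FF M)) (f : FF M) (a : Kbar) : Prop :=
  f - cst M a ∈ v.toValuationSubring.nonunits

/-- the place `v` reduces to a finite point of the `j`-line: `j(v) ∈ A`. -/
def IsFinAt {M : ℕ} [NeZero M] (A : ValuationSubring Kbar) (v : Place Kbar (FF M)) : Prop :=
  ∃ a : Kbar, a ∈ A ∧ ValueAt v (jB M) a

/-- `f(v)` and `f(w)` are in `A` and congruent modulo `𝔪_A`. -/
def CongAt {M : ℕ} (A : ValuationSubring Kbar) (v w : Place Kbar (FF M)) (f : FF M) : Prop :=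
  ∃ a b : Kbar, a ∈ A ∧ b ∈ A ∧ ValueAt v f a ∧ ValueAt w f b ∧ a - b ∈ A.nonunits

/-- the places `v` and `w` have the same reduction modulo `𝔪_A` on the normal model. -/
def SameRed {M : ℕ} [NeZero M] (A : ValuationSubring Kbar) (v w : Place Kbar (FF M)) : Prop :=
  (IsFinAt A v ∧ IsFinAt A w ∧ ∀ f ∈ modelFin M A, CongAt A v w f) ∨
  (¬ IsFinAt A v ∧ ¬ IsFinAt A w ∧ ∀ f ∈ modelInf M A, CongAt A v w f)

/-- the group of divisors "reducing to zero". -/
def redKer (M : ℕ) [NeZero M] (A : ValuationSubring Kbar) : AddSubgroup (Divisor Kbar (FF M)) :=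
  AddSubgroup.closure
    {D | ∃ v w : Place Kbar (FF M), SameRed A v w ∧
      D = Finsupp.single v (1 : ℤ) - Finsupp.single w (1 : ℤ)}

/-- the subgroup of `J₀(M)` of classes of degree-zero divisors reducing to zero
("kernel of reduction"). -/
def redKerPic (M : ℕ) [NeZero M] (A : ValuationSubring Kbar) : AddSubgroup (JZero M) where
  carrier := {x | ∃ D : Divisor.degZero (K := Kbar) (F := FF M),
    (D : Divisor Kbar (FF M)) ∈ redKer M A ∧ x = Pic0.mk D}
  zero_mem' := ⟨0, (redKer M A).zero_mem, rfl⟩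
  add_mem' := by
    rintro _ _ ⟨D, hD, rfl⟩ ⟨E, hE, rfl⟩
    exact ⟨D + E, (redKer M A).add_mem hD hE, rfl⟩
  neg_mem' := by
    rintro _ ⟨D, hD, rfl⟩
    exact ⟨-D, (redKer M A).neg_mem hD, rfl⟩

theorem mem_redKerPic {M : ℕ} [NeZero M] {A : ValuationSubring Kbar} {x : JZero M} :
    x ∈ redKerPic M A ↔ ∃ D : Divisor.degZero (K := Kbar) (F := FF M),
      (D : Divisor Kbar (FF M)) ∈ redKer M A ∧ x = Pic0.mk D :=
  Iff.rfl

theorem single_sub_single_mem_redKer {M : ℕ} [NeZero M] {A : ValuationSubring Kbar}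
    {v w : Place Kbar (FF M)} (h : SameRed A v w) :
    Finsupp.single v (1 : ℤ) - Finsupp.single w (1 : ℤ) ∈ redKer M A :=
  AddSubgroup.subset_closure ⟨v, w, h, rfl⟩

/-- `F_N ⊆ F_M` for `N ∣ M`. -/
theorem ffBar_le {N M : ℕ} [NeZero N] [NeZero M] (h : N ∣ M) :
    modularFunctionFieldBar N ≤ modularFunctionFieldBar M :=
  IntermediateField.adjoin.mono _ _ _ (Set.image_mono (full_degeneracy_le h))

/-- the degeneracy inclusion `F_N → F_M` for `N ∣ M` (identity on `q`-expansions). -/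
def degen {N M : ℕ} [NeZero N] [NeZero M] (h : N ∣ M) : FF N →ₐ[Kbar] FF M :=
  IntermediateField.inclusion (ffBar_le h)

@[simp]
theorem coe_degen {N M : ℕ} [NeZero N] [NeZero M] (h : N ∣ M) (x : FF N) :
    (degen h x : LaurentSeries Kbar) = (x : LaurentSeries Kbar) :=
  IntermediateField.coe_inclusion _ x

/-- `f` has rational `q`-expansion coefficients. -/
def IsRat {M : ℕ} (f : FF M) : Prop :=
  ∃ y : LaurentSeries ℚ, y ∈ modularFunctionFieldFull M ∧
    coeffEmb Kbar y = (f : LaurentSeries Kbar)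

/-- the good auxiliary level: `4` for odd `ℓ`, `9` for `ℓ = 2`. -/
def auxLevel (ℓ : ℕ) : ℕ := if ℓ = 2 then 9 else 4

/-- the good level above `N`. -/
def goodLevel (ℓ N : ℕ) : ℕ := Nat.lcm N (auxLevel ℓ)

theorem auxLevel_pos (ℓ : ℕ) : 0 < auxLevel ℓ := by
  unfold auxLevel; split_ifs <;> norm_num

instance goodLevel_neZero (ℓ N : ℕ) [NeZero N] : NeZero (goodLevel ℓ N) :=
  ⟨Nat.lcm_ne_zero (NeZero.ne N) (auxLevel_pos ℓ).ne'⟩

theorem dvd_goodLevel (ℓ N : ℕ) : N ∣ goodLevel ℓ N := Nat.dvd_lcm_left _ _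

theorem auxLevel_dvd_goodLevel (ℓ N : ℕ) : auxLevel ℓ ∣ goodLevel ℓ N := Nat.dvd_lcm_right _ _

theorem not_dvd_auxLevel {ℓ : ℕ} (hℓ : ℓ.Prime) : ¬ ℓ ∣ auxLevel ℓ := by
  intro h3
  unfold auxLevel at h3
  split_ifs at h3 with h4
  · subst h4; norm_num at h3
  · have h5 : ℓ ∣ 2 ^ 2 := by simpa using h3
    exact h4 ((Nat.prime_dvd_prime_iff_eq hℓ Nat.prime_two).1 (hℓ.dvd_of_dvd_pow h5))

theorem not_dvd_goodLevel {ℓ N : ℕ} (hℓ : ℓ.Prime) (h : ¬ ℓ ∣ N) : ¬ ℓ ∣ goodLevel ℓ N := by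
  intro hd
  have h2 : ℓ ∣ N * auxLevel ℓ := hd.trans (Nat.lcm_dvd_mul _ _)
  rcases (Nat.Prime.dvd_mul hℓ).1 h2 with h3 | h3
  · exact h h3
  · exact not_dvd_auxLevel hℓ h3

/-- the ideal `𝔪_A · R` of a subring `R ⊆ F_M`. -/
def maxExt {M : ℕ} (A : ValuationSubring Kbar) (R : Subring (FF M)) : Ideal R :=
  Ideal.span {x : R | ∃ a : Kbar, a ∈ A.nonunits ∧ (x : FF M) = cst M a}

end Fermat.Agent.S37
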