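import Fermat.Agent.Red.SM.FinalTID
import Fermat.Agent.Red.SM.TID2
import Fermat.Agent.Red.SM.TID3Row

/-!
# P-RED (helper37): the smoothness interface, unconditionally

`h37_rowTID : Inst.RowTID` (the Hauptmoduln `t₂` of helper29 and `t₃` of helper80, glued by
helper55's `h55t_rowTID`), hence `h37_ifaceSmooth : IfaceSmooth` (helper13's
`h13_ifaceSmooth_of_rowTID`, on top of helper74's SM-CORE and the instantiation rows).
-/

set_option autoImplicit false

namespace Fermat.Agent.S37

open Fermat.Agent.Red.SM

/-- **SM-TID**: the coordinates `t₂`, `t₃` exist at every good level. -/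
theorem h37_rowTID : Inst.RowTID :=
  TID.rowTID_of_t2 TID.t2_identity TID.t2_fricke TID.t2_coeff_int TID.t2_isMonicOfOrder

/-- **the smoothness interface.** -/
theorem h37_ifaceSmooth : IfaceSmooth :=
  h13_ifaceSmooth_of_rowTID h37_rowTID

end Fermat.Agent.S37
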