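import Fermat.Agent.S37.Skeleton
import Fermat.Agent.Red.HKMod
import Fermat.Agent.S05.H86Good

/-!
# P-RED, module GAL-I (helper76): inertia does not move the reduction of a point

`ifaceInertia_of : IfaceBaseChange N → IfaceInertia N`.

For `σ` in the inertia group of `A` and a place `v` of `F_N`, the places `σ • v` and `v` have the
same reduction: a chart function `f` with rational `q`-expansion is fixed by `σ`, so
`f(σ • v) = σ (f(v))`, and `σ b ≡ b` modulo `𝔪_A` for `b ∈ A`; constants of `A` are harmless; by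
base change the chart is generated by these two kinds of functions, and `CongAt` is compatible
with the ring operations.
-/

set_option autoImplicit false

open AlgebraicCurve ModularCurve IntermediateField

noncomputable section

namespace Fermat.Agent.S37

namespace GalI

/-! ### Nonunits of valuation subrings -/

section Nonunits

variable {F : Type*} [Field F]

theorem zero_mem_nonunits (S : ValuationSubring F) : (0 : F) ∈ S.nonunits := by
  rw [S.mem_nonunits_iff, map_zero]
  exact zero_lt_one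

theorem mem_nonunits_iff_inv (S : ValuationSubring F) {x : F} (hx : x ≠ 0) :
    x ∈ S.nonunits ↔ x⁻¹ ∉ S := by
  have h0 : S.valuation x ≠ 0 := (S.valuation.ne_zero_iff).mpr hx
  rw [S.mem_nonunits_iff, ← S.valuation_le_one_iff, map_inv₀, not_le,
    one_lt_inv₀ (zero_lt_iff.mpr h0)]

theorem nonunits_le (S : ValuationSubring F) {x : F} (hx : x ∈ S.nonunits) : x ∈ S := by
  rw [S.mem_nonunits_iff] at hx
  exact (S.valuation_le_one_iff x).mp hx.le

theorem add_mem_nonunits (S : ValuationSubring F) {x y : F} (hx : x ∈ S.nonunits)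
    (hy : y ∈ S.nonunits) : x + y ∈ S.nonunits := by
  rw [S.mem_nonunits_iff] at *
  exact S.valuation.map_add_lt hx hy

theorem neg_mem_nonunits (S : ValuationSubring F) {x : F} (hx : x ∈ S.nonunits) :
    -x ∈ S.nonunits := by
  rw [S.mem_nonunits_iff] at *
  rwa [Valuation.map_neg]

theorem sub_mem_nonunits (S : ValuationSubring F) {x y : F} (hx : x ∈ S.nonunits)
    (hy : y ∈ S.nonunits) : x - y ∈ S.nonunits := by
  rw [sub_eq_add_neg]
  exact add_mem_nonunits S hx (neg_mem_nonunits S hy)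

theorem mul_mem_nonunits_left (S : ValuationSubring F) {x y : F} (hx : x ∈ S.nonunits)
    (hy : y ∈ S) : x * y ∈ S.nonunits := by
  rw [S.mem_nonunits_iff] at *
  rw [map_mul]
  exact mul_lt_one_of_lt_of_le hx ((S.valuation_le_one_iff y).mpr hy)

theorem mul_mem_nonunits_right (S : ValuationSubring F) {x y : F} (hx : x ∈ S)
    (hy : y ∈ S.nonunits) : x * y ∈ S.nonunits := by
  rw [mul_comm]
  exact mul_mem_nonunits_left S hy hx

end Nonunits

/-! ### Semilinear automorphisms and nonunits -/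

section Smul

variable {K F : Type*} [Field K] [Field F] [Algebra K F]

open scoped Pointwise

theorem smul_mem_nonunits (g : SemilinearAut K F) (S : ValuationSubring F) {x : F}
    (hx : x ∈ S.nonunits) : g • x ∈ (g • S : ValuationSubring F).nonunits := by
  by_cases h0 : x = 0
  · subst h0
    rw [smul_zero]
    exact zero_mem_nonunits _
  · have hg0 : g • x ≠ 0 := by
      intro h
      apply h0
      have := congrArg (fun y => g⁻¹ • y) h
      simpa using this
    rw [mem_nonunits_iff_inv _ hg0, ValuationSubring.mem_pointwise_smul_iff_inv_smul_mem]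
    rw [mem_nonunits_iff_inv _ h0] at hx
    intro h
    apply hx
    have h1 : g⁻¹ • (g • x)⁻¹ = x⁻¹ := by
      rw [← smul_inv'' g x, inv_smul_smul]
    rwa [h1] at h

end Smul

/-! ### Values of functions at places -/

section Values

variable {M : ℕ}

theorem cst_add (a b : Kbar) : cst M (a + b) = cst M a + cst M b := map_add _ _ _

theorem cst_mul (a b : Kbar) : cst M (a * b) = cst M a * cst M b := map_mul _ _ _

theorem cst_neg (a : Kbar) : cst M (-a) = -cst M a := map_neg _ _

theorem cst_sub (a b : Kbar) : cst M (a - b) = cst M a - cst M b := map_sub _ _ _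

theorem cst_zero : cst M (0 : Kbar) = 0 := map_zero _

theorem cst_one : cst M (1 : Kbar) = 1 := map_one _

theorem cst_inv (a : Kbar) : cst M a⁻¹ = (cst M a)⁻¹ := map_inv₀ _ _

theorem valueAt_mem {v : Place Kbar (FF M)} {f : FF M} {a : Kbar} (h : ValueAt v f a) :
    f ∈ v.toValuationSubring := by
  have h1 : f = (f - cst M a) + cst M a := by ring
  rw [h1]
  exact add_mem (nonunits_le _ h) (v.algebraMap_mem' a)

theorem valueAt_cst (v : Place Kbar (FF M)) (c : Kbar) : ValueAt v (cst M c) c := by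
  unfold ValueAt
  rw [sub_self]
  exact zero_mem_nonunits _

theorem valueAt_zero (v : Place Kbar (FF M)) : ValueAt v (0 : FF M) 0 := by
  have := valueAt_cst v (0 : Kbar)
  rwa [cst_zero] at this

theorem valueAt_one (v : Place Kbar (FF M)) : ValueAt v (1 : FF M) 1 := by
  have := valueAt_cst v (1 : Kbar)
  rwa [cst_one] at this

theorem valueAt_add {v : Place Kbar (FF M)} {f₁ f₂ : FF M} {a₁ a₂ : Kbar}
    (h₁ : ValueAt v f₁ a₁) (h₂ : ValueAt v f₂ a₂) : ValueAt v (f₁ + f₂) (a₁ + a₂) := by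
  unfold ValueAt at *
  have e : f₁ + f₂ - cst M (a₁ + a₂) = (f₁ - cst M a₁) + (f₂ - cst M a₂) := by
    rw [cst_add]; ring
  rw [e]
  exact add_mem_nonunits _ h₁ h₂

theorem valueAt_neg {v : Place Kbar (FF M)} {f : FF M} {a : Kbar}
    (h : ValueAt v f a) : ValueAt v (-f) (-a) := by
  unfold ValueAt at *
  have e : -f - cst M (-a) = -(f - cst M a) := by
    rw [cst_neg]; ring
  rw [e]
  exact neg_mem_nonunits _ h

theorem valueAt_mul {v : Place Kbar (FF M)} {f₁ f₂ : FF M} {a₁ a₂ : Kbar}
    (h₁ : ValueAt v f₁ a₁) (h₂ : ValueAt v f₂ a₂) : ValueAt v (f₁ * f₂) (a₁ * a₂) := by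
  have hf₁ := valueAt_mem h₁
  unfold ValueAt at *
  have e : f₁ * f₂ - cst M (a₁ * a₂) = f₁ * (f₂ - cst M a₂) + (f₁ - cst M a₁) * cst M a₂ := by
    rw [cst_mul]; ring
  rw [e]
  exact add_mem_nonunits _ (mul_mem_nonunits_right _ hf₁ h₂)
    (mul_mem_nonunits_left _ h₁ (v.algebraMap_mem' a₂))

theorem cst_not_mem_nonunits (v : Place Kbar (FF M)) {c : Kbar} (hc : c ≠ 0) :
    cst M c ∉ v.toValuationSubring.nonunits := by
  have h0 : cst M c ≠ 0 := by
    intro h
    apply hc
    exact (algebraMap Kbar (FF M)).injective (h.trans (map_zero _).symm)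
  rw [mem_nonunits_iff_inv _ h0, not_not]
  rw [← cst_inv]
  exact v.algebraMap_mem' _

theorem valueAt_unique {v : Place Kbar (FF M)} {f : FF M} {a b : Kbar}
    (ha : ValueAt v f a) (hb : ValueAt v f b) : a = b := by
  by_contra hab
  have h1 : cst M (b - a) ∈ v.toValuationSubring.nonunits := by
    have e : cst M (b - a) = (f - cst M a) - (f - cst M b) := by
      rw [cst_sub]; ring
    rw [e]
    exact sub_mem_nonunits _ ha hb
  exact cst_not_mem_nonunits v (sub_ne_zero.mpr (Ne.symm hab)) h1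

theorem exists_valueAt [NeZero M] (v : Place Kbar (FF M)) {f : FF M}
    (hf : f ∈ v.toValuationSubring) : ∃ a : Kbar, ValueAt v f a := by
  have := Fermat.Agent.Red.HKMod.finiteDimensional_jBar M
  have halg : Algebra.IsAlgebraic Kbar⟮Fermat.Agent.S24.jBar M⟯ (FF M) :=
    Algebra.IsAlgebraic.of_finite _ _
  obtain ⟨a, ha⟩ := Fermat.Agent.S24.DiffPlace.exists_const_sub_mem_maximalIdeal
    (Fermat.Agent.S24.jBar M) halg v ⟨f, hf⟩
  refine ⟨a, ?_⟩
  unfold ValueAt
  rw [ValuationSubring.mem_nonunits_iff_exists_mem_maximalIdeal]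
  exact ⟨sub_mem hf (v.algebraMap_mem' a), ha⟩

end Values

/-! ### Values of chart functions lie in `A` -/

section Chart

variable {M : ℕ} [NeZero M]

/-- the value of an element of the valuation ring at the place. -/
def evFun (v : Place Kbar (FF M)) (t : v.toValuationSubring) : Kbar :=
  Classical.choose (exists_valueAt v t.2)

theorem evFun_spec (v : Place Kbar (FF M)) (t : v.toValuationSubring) :
    ValueAt v (t : FF M) (evFun v t) :=
  Classical.choose_spec (exists_valueAt v t.2)

/-- evaluation at a place, as a ring homomorphism on the valuation ring. -/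
def evAt (v : Place Kbar (FF M)) : v.toValuationSubring →+* Kbar where
  toFun := evFun v
  map_one' := valueAt_unique (evFun_spec v 1) (valueAt_one v)
  map_zero' := valueAt_unique (evFun_spec v 0) (valueAt_zero v)
  map_mul' x y := valueAt_unique (evFun_spec v (x * y))
    (valueAt_mul (evFun_spec v x) (evFun_spec v y))
  map_add' x y := valueAt_unique (evFun_spec v (x + y))
    (valueAt_add (evFun_spec v x) (evFun_spec v y))

theorem evAt_spec (v : Place Kbar (FF M)) (t : v.toValuationSubring) :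
    ValueAt v (t : FF M) (evAt v t) :=
  evFun_spec v t

set_option synthInstance.maxHeartbeats 400000 in
/-- An element integral over a subring all of whose elements take values in `A` at `v`
takes a value in `A` at `v`. -/
theorem value_mem_of_isIntegral (A : ValuationSubring Kbar) (v : Place Kbar (FF M))
    (R : Subring (FF M)) (hR : ∀ r ∈ R, ∃ a ∈ A, ValueAt v r a) {f : FF M}
    (hf : IsIntegral R f) : ∃ b ∈ A, ValueAt v f b := by
  have hle : R ≤ v.toValuationSubring.toSubring := fun r hr => by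
    obtain ⟨a, -, h⟩ := hR r hr
    exact valueAt_mem h
  obtain ⟨p, hp, hpf⟩ := hf
  let ι : R →+* v.toValuationSubring := Subring.inclusion hle
  have hι : (algebraMap v.toValuationSubring (FF M)).comp ι = algebraMap R (FF M) :=
    RingHom.ext fun r => rfl
  have hfO : f ∈ v.toValuationSubring := by
    have h1 : IsIntegral v.toValuationSubring f := by
      refine ⟨p.map ι, hp.map ι, ?_⟩
      rw [Polynomial.eval₂_map, hι]
      exact hpf
    obtain ⟨y, rfl⟩ :=
      (IsIntegrallyClosed.isIntegral_iff (R := v.toValuationSubring) (K := FF M)).mp h1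
    exact y.2
  let ψ : R →+* Kbar := (evAt v).comp ι
  have hψA : ∀ r, ψ r ∈ A.toSubring := by
    intro r
    obtain ⟨a, ha, hv⟩ := hR r r.2
    have h1 : ψ r = a := valueAt_unique (evAt_spec v (ι r)) hv
    rw [h1]
    exact ha
  let φ : R →+* A := ψ.codRestrict A.toSubring hψA
  have hφ : (algebraMap A Kbar).comp φ = ψ := RingHom.ext fun r => rfl
  have h2 : p.eval₂ ι (⟨f, hfO⟩ : v.toValuationSubring) = 0 := by
    apply Subtype.ext
    have h3 := Polynomial.hom_eval₂ p ι (algebraMap v.toValuationSubring (FF M)) ⟨f, hfO⟩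
    rw [hι] at h3
    exact h3.trans hpf
  have hb : IsIntegral A (evAt v ⟨f, hfO⟩) := by
    refine ⟨p.map φ, hp.map φ, ?_⟩
    rw [Polynomial.eval₂_map, hφ]
    have h4 := Polynomial.hom_eval₂ p ι (evAt v) ⟨f, hfO⟩
    rw [h2, map_zero] at h4
    exact h4.symm
  obtain ⟨y, hy⟩ := (IsIntegrallyClosed.isIntegral_iff (R := A) (K := Kbar)).mp hb
  refine ⟨evAt v ⟨f, hfO⟩, ?_, evAt_spec v ⟨f, hfO⟩⟩
  rw [← hy]
  exact y.2

omit [NeZero M] in
/-- The elements of `A[x]` take values in `A` at a place where `x` does. -/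
theorem ringAdj_value (A : ValuationSubring Kbar) (v : Place Kbar (FF M)) {x : FF M}
    {a₀ : Kbar} (ha₀ : a₀ ∈ A) (hx : ValueAt v x a₀) :
    ∀ r ∈ ringAdj M A x, ∃ a ∈ A, ValueAt v r a := by
  intro r hr
  unfold ringAdj at hr
  induction hr using Subring.closure_induction with
  | mem y hy =>
    rcases hy with ⟨c, hc, rfl⟩ | hy
    · exact ⟨c, hc, valueAt_cst v c⟩
    · rw [Set.mem_singleton_iff] at hy
      subst hy
      exact ⟨a₀, ha₀, hx⟩
  | zero => exact ⟨0, A.zero_mem, valueAt_zero v⟩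
  | one => exact ⟨1, A.one_mem, valueAt_one v⟩
  | add y z _ _ ihy ihz =>
    obtain ⟨a, ha, hya⟩ := ihy
    obtain ⟨b, hb, hzb⟩ := ihz
    exact ⟨a + b, A.add_mem _ _ ha hb, valueAt_add hya hzb⟩
  | neg y _ ihy =>
    obtain ⟨a, ha, hya⟩ := ihy
    exact ⟨-a, A.neg_mem _ ha, valueAt_neg hya⟩
  | mul y z _ _ ihy ihz =>
    obtain ⟨a, ha, hya⟩ := ihy
    obtain ⟨b, hb, hzb⟩ := ihz
    exact ⟨a * b, A.mul_mem _ _ ha hb, valueAt_mul hya hzb⟩

set_option synthInstance.maxHeartbeats 400000 in
/-- Chart functions take values in `A` at the places of the chart. -/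
theorem chart_value (A : ValuationSubring Kbar) (v : Place Kbar (FF M)) {x : FF M}
    {a₀ : Kbar} (ha₀ : a₀ ∈ A) (hx : ValueAt v x a₀) {f : FF M} (hf : f ∈ modelAt M A x) :
    ∃ b ∈ A, ValueAt v f b :=
  value_mem_of_isIntegral A v _ (ringAdj_value A v ha₀ hx) hf

end Chart

/-! ### The Galois action -/

section Galois

variable {N : ℕ} [NeZero N]

omit [NeZero N] in
/-- Galois fixes the functions with rational `q`-expansion. -/
theorem gal_smul_of_isRat (σ : GQ) {f : FF N} (hf : IsRat f) : gal N σ • f = f := by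
  obtain ⟨y, -, hyf⟩ := hf
  apply Subtype.ext
  rw [coe_arithmeticGalois_smul, ← hyf, coeffMap_coeffEmb]

omit [NeZero N] in
theorem gal_smul_cst (σ : GQ) (a : Kbar) : gal N σ • cst N a = cst N (σ a) := by
  rw [SemilinearAut.smul_algebraMap, baseAut_arithmeticGalois]
  rfl

theorem gal_smul_jB (σ : GQ) : gal N σ • jB N = jB N := by
  apply Subtype.ext
  rw [coe_arithmeticGalois_smul]
  exact coeffMap_coeffEmb σ jq

theorem gal_smul_jB_inv (σ : GQ) : gal N σ • (jB N)⁻¹ = (jB N)⁻¹ := by
  rw [smul_inv'', gal_smul_jB]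

omit [NeZero N] in
theorem valueAt_gal {v : Place Kbar (FF N)} {f : FF N} {a : Kbar} (σ : GQ)
    (h : ValueAt v f a) : ValueAt (gal N σ • v) (gal N σ • f) (σ a) := by
  unfold ValueAt at *
  have h1 := smul_mem_nonunits (gal N σ) v.toValuationSubring h
  rw [smul_sub, gal_smul_cst] at h1
  exact h1

omit [NeZero N] in
/-- `CongAt` is compatible with the ring operations. -/
theorem congAt_of_closure (A : ValuationSubring Kbar) (w v : Place Kbar (FF N))
    (S : Set (FF N)) (hS : ∀ f ∈ S, CongAt A w v f) {f : FF N}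
    (hf : f ∈ Subring.closure S) : CongAt A w v f := by
  induction hf using Subring.closure_induction with
  | mem y hy => exact hS y hy
  | zero =>
    exact ⟨0, 0, A.zero_mem, A.zero_mem, valueAt_zero w, valueAt_zero v, by
      rw [sub_self]; exact zero_mem_nonunits A⟩
  | one =>
    exact ⟨1, 1, A.one_mem, A.one_mem, valueAt_one w, valueAt_one v, by
      rw [sub_self]; exact zero_mem_nonunits A⟩
  | add y z _ _ ihy ihz =>
    obtain ⟨a₁, b₁, ha₁, hb₁, hw₁, hv₁, h₁⟩ := ihy
    obtain ⟨a₂, b₂, ha₂, hb₂, hw₂, hv₂, h₂⟩ := ihz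
    refine ⟨a₁ + a₂, b₁ + b₂, A.add_mem _ _ ha₁ ha₂, A.add_mem _ _ hb₁ hb₂,
      valueAt_add hw₁ hw₂, valueAt_add hv₁ hv₂, ?_⟩
    have e : a₁ + a₂ - (b₁ + b₂) = (a₁ - b₁) + (a₂ - b₂) := by ring
    rw [e]
    exact add_mem_nonunits A h₁ h₂
  | neg y _ ihy =>
    obtain ⟨a₁, b₁, ha₁, hb₁, hw₁, hv₁, h₁⟩ := ihy
    refine ⟨-a₁, -b₁, A.neg_mem _ ha₁, A.neg_mem _ hb₁, valueAt_neg hw₁, valueAt_neg hv₁, ?_⟩
    have e : -a₁ - -b₁ = -(a₁ - b₁) := by ring
    rw [e]
    exact neg_mem_nonunits A h₁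
  | mul y z _ _ ihy ihz =>
    obtain ⟨a₁, b₁, ha₁, hb₁, hw₁, hv₁, h₁⟩ := ihy
    obtain ⟨a₂, b₂, ha₂, hb₂, hw₂, hv₂, h₂⟩ := ihz
    refine ⟨a₁ * a₂, b₁ * b₂, A.mul_mem _ _ ha₁ ha₂, A.mul_mem _ _ hb₁ hb₂,
      valueAt_mul hw₁ hw₂, valueAt_mul hv₁ hv₂, ?_⟩
    have e : a₁ * a₂ - b₁ * b₂ = a₁ * (a₂ - b₂) + (a₁ - b₁) * b₂ := by ring
    rw [e]
    exact add_mem_nonunits A (mul_mem_nonunits_right A ha₁ h₂)
      (mul_mem_nonunits_left A h₁ hb₂)

/-- The key step: on a chart `A[x]~` with `x` rational and `x(v) ∈ A`, an inertia element does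
not change the values of chart functions modulo `𝔪_A`. -/
theorem congAt_chart (A : ValuationSubring Kbar) {σ : GQ} (hσ : σ ∈ A.inertiaSubgroupIn ℚ)
    (v : Place Kbar (FF N)) {x : FF N} {a₀ : Kbar} (ha₀ : a₀ ∈ A) (hv : ValueAt v x a₀)
    (hBC : modelAt N A x ≤ Subring.closure
      ((fun a : Kbar => cst N a) '' (A : Set Kbar) ∪ {f | IsRat f ∧ f ∈ modelAt N A x})) :
    ∀ f ∈ modelAt N A x, CongAt A (gal N σ • v) v f := by
  intro f hf
  refine congAt_of_closure A _ _ _ ?_ (hBC hf)
  rintro g (⟨c, hc, rfl⟩ | ⟨hrat, hg⟩)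
  · obtain ⟨h1, h2⟩ := Fermat.Agent.S05.H86.inertia_apply_mem A hσ hc
    have h3 := valueAt_gal σ (valueAt_cst v c)
    rw [gal_smul_cst] at h3
    refine ⟨c, c, hc, hc, ?_, valueAt_cst v c, by rw [sub_self]; exact zero_mem_nonunits A⟩
    exact valueAt_cst _ c
  · obtain ⟨b, hbA, hb⟩ := chart_value A v ha₀ hv hg
    obtain ⟨h1, h2⟩ := Fermat.Agent.S05.H86.inertia_apply_mem A hσ hbA
    have h3 := valueAt_gal σ hb
    rw [gal_smul_of_isRat σ hrat] at h3
    exact ⟨σ b, b, h1, hbA, h3, hb, h2⟩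

/-- finiteness of the reduction is preserved by inertia. -/
theorem isFinAt_gal (A : ValuationSubring Kbar) {σ : GQ} (hσ : σ ∈ A.inertiaSubgroupIn ℚ)
    {v : Place Kbar (FF N)} (h : IsFinAt A v) : IsFinAt A (gal N σ • v) := by
  obtain ⟨a, ha, hv⟩ := h
  have h3 := valueAt_gal σ hv
  rw [gal_smul_jB] at h3
  exact ⟨σ a, (Fermat.Agent.S05.H86.inertia_apply_mem A hσ ha).1, h3⟩

/-- at a place which does not reduce to a finite point, `1/j` takes a value in `A`. -/
theorem exists_valueAt_inv (A : ValuationSubring Kbar) {v : Place Kbar (FF N)}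
    (h : ¬ IsFinAt A v) : ∃ a ∈ A, ValueAt v (jB N)⁻¹ a := by
  by_cases hj0 : jB N = 0
  · refine ⟨0, A.zero_mem, ?_⟩
    rw [hj0, inv_zero]
    exact valueAt_zero v
  by_cases hj : jB N ∈ v.toValuationSubring
  · obtain ⟨a, ha⟩ := exists_valueAt v hj
    have haA : a ∉ A := fun haA => h ⟨a, haA, ha⟩
    have ha0 : a ≠ 0 := by
      rintro rfl
      exact haA A.zero_mem
    have hinvA : a⁻¹ ∈ A := (A.mem_or_inv_mem a).resolve_left haA
    refine ⟨a⁻¹, hinvA, ?_⟩
    -- `j` is a unit at `v`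
    have hjunit : (jB N)⁻¹ ∈ v.toValuationSubring := by
      by_contra hcon
      have h1 : jB N ∈ v.toValuationSubring.nonunits := (mem_nonunits_iff_inv _ hj0).mpr hcon
      have h2 : ValueAt v (jB N) 0 := by
        unfold ValueAt
        rw [cst_zero, sub_zero]
        exact h1
      exact ha0 (valueAt_unique ha h2)
    unfold ValueAt at ha ⊢
    have hc0 : cst N a ≠ 0 := by
      intro h0
      apply ha0
      exact (algebraMap Kbar (FF N)).injective (h0.trans (map_zero _).symm)
    have e : (jB N)⁻¹ - cst N a⁻¹ = -(jB N - cst N a) * ((jB N)⁻¹ * cst N a⁻¹) := by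
      rw [cst_inv]
      field_simp
      ring
    rw [e]
    exact mul_mem_nonunits_left _ (neg_mem_nonunits _ ha)
      (mul_mem hjunit (v.algebraMap_mem' _))
  · refine ⟨0, A.zero_mem, ?_⟩
    unfold ValueAt
    rw [cst_zero, sub_zero, mem_nonunits_iff_inv _ (inv_ne_zero hj0), inv_inv]
    exact hj

end Galois

end GalI

/-- **GAL-I.**  Inertia does not move the reduction of a point (from base change of the normal
model). -/
theorem ifaceInertia_of (N : ℕ) [NeZero N] (hBC : IfaceBaseChange N) : IfaceInertia N := by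
  intro ℓ hℓ hℓN A hA σ hσ v
  obtain ⟨hfin, hinf⟩ := hBC ℓ hℓ hℓN A hA
  by_cases h : IsFinAt A v
  · left
    obtain ⟨a, ha, hv⟩ := h
    exact ⟨GalI.isFinAt_gal A hσ ⟨a, ha, hv⟩, ⟨a, ha, hv⟩,
      GalI.congAt_chart A hσ v ha hv hfin⟩
  · right
    have h' : ¬ IsFinAt A (gal N σ • v) := by
      intro hcon
      apply h
      have h1 := GalI.isFinAt_gal A (inv_mem hσ) hcon
      have h2 : gal N σ⁻¹ • gal N σ • v = v := by
        rw [show gal N σ⁻¹ = (gal N σ)⁻¹ from map_inv _ σ, inv_smul_smul]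
      rwa [h2] at h1
    obtain ⟨a, ha, hv⟩ := GalI.exists_valueAt_inv A h
    exact ⟨h', h, GalI.congAt_chart A hσ v ha hv hinf⟩

end Fermat.Agent.S37
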