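import Fermat.Agent.S37.Gate
import Fermat.Agent.S24.DiffPlace

/-!
# P-RED: assembly of the interfaces

* `torsionInjGood_of` : `GateGood → IfaceNormalize → IfaceTorsionInjGood`
* `torsionInj_of` : transfer to the good level
* `redKerPackage_of` : the three properties of `redKerPic`
-/

set_option autoImplicit false

open AlgebraicCurve ModularCurve

noncomputable section

namespace Fermat.Agent.S37

/-! ## Divisor classes -/

/-- the class map as a homomorphism. -/
def pic0MkHom (M : ℕ) : Divisor.degZero (K := Kbar) (F := FF M) →+ JZero M :=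
  QuotientAddGroup.mk' _

@[simp]
theorem pic0MkHom_apply {M : ℕ} (D : Divisor.degZero (K := Kbar) (F := FF M)) :
    pic0MkHom M D = Pic0.mk D := rfl

theorem pic0_mk_eq_zero_iff {M : ℕ} (D : Divisor.degZero (K := Kbar) (F := FF M)) :
    Pic0.mk D = 0 ↔ (D : Divisor Kbar (FF M)).IsPrincipal := by
  show (QuotientAddGroup.mk D : JZero M) = 0 ↔ _
  rw [QuotientAddGroup.eq_zero_iff, AddSubgroup.mem_addSubgroupOf]
  exact Divisor.mem_principal

/-! ## `TI` at a good level from the gate -/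

theorem torsionInjGood_of (hG : GateGood) (hNz : IfaceNormalize) : IfaceTorsionInjGood := by
  intro ℓ hℓ M _ hℓM haux A hA r hr hrℓ D hD _ hprin
  obtain ⟨u, hu0, hu⟩ := hprin
  have hu' : ∀ v : Place Kbar (FF M), v.ord u = r * D v := by
    intro v
    rw [← hu v, Finsupp.smul_apply, nsmul_eq_mul]
  obtain ⟨c, hc0, hc⟩ := hNz ℓ hℓ M hℓM haux A hA r hr hrℓ D hD u hu0 hu'
  have hcst0 : cst M c ≠ 0 := by
    rw [Ne, map_eq_zero_iff _ (algebraMap Kbar (FF M)).injective]
    exact hc0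
  have hw0 : cst M c * u ≠ 0 := mul_ne_zero hcst0 hu0
  have hordw : ∀ v : Place Kbar (FF M), v.ord (cst M c * u) = r * D v := by
    intro v
    rw [v.ord_mul hcst0 hu0, Fermat.Agent.S24.DiffPlace.ord_algebraMap, zero_add, hu' v]
  obtain ⟨h, hh⟩ := hG ℓ hℓ M hℓM haux A hA r hr hrℓ (cst M c * u) hw0
    (fun v => ⟨D v, hordw v⟩) hc
  have hh0 : h ≠ 0 := by
    rintro rfl
    rw [zero_pow hr.ne_zero] at hh
    exact hw0 hh.symm
  refine ⟨h, hh0, fun v => ?_⟩
  have h1 : v.ord (h ^ r) = r * v.ord h := by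
    have := v.ord_zpow h (r : ℤ)
    rwa [zpow_natCast] at this
  have h2 : (r : ℤ) * v.ord h = r * D v := by rw [← h1, hh, hordw v]
  have hr0 : (r : ℤ) ≠ 0 := by exact_mod_cast hr.ne_zero
  exact (mul_left_cancel₀ hr0 h2).symm

/-! ## `TI` at every level -/

theorem torsionInj_of (hT : IfaceTransferRed) (hP : IfacePullbackInj) (hD : IfaceDegenInputs)
    (hG : IfaceTorsionInjGood) (N : ℕ) [NeZero N] : IfaceTorsionInj N := by
  intro ℓ hℓ hℓN A hA r hr hrℓ D hDred hD0 hprin
  obtain ⟨hint, hPD, hFI⟩ := hD N (goodLevel ℓ N) (dvd_goodLevel ℓ N)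
  have h1 : Divisor.pullbackAlong (degen (dvd_goodLevel ℓ N)) hint D ∈ redKer (goodLevel ℓ N) A :=
    hT N (goodLevel ℓ N) (dvd_goodLevel ℓ N) A hint D hDred
  have h2 : Divisor.pullbackAlong (degen (dvd_goodLevel ℓ N)) hint D
      ∈ Divisor.degZero (K := Kbar) (F := FF (goodLevel ℓ N)) :=
    Divisor.pullbackAlong_mem_degZero _ hint hFI hD0
  have h3 : (r • Divisor.pullbackAlong (degen (dvd_goodLevel ℓ N)) hint D).IsPrincipal := by
    rw [← map_nsmul]
    exact Divisor.isPrincipal_pullbackAlong _ hint hprin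
  have h4 := hG ℓ hℓ (goodLevel ℓ N) (not_dvd_goodLevel hℓ hℓN) (auxLevel_dvd_goodLevel ℓ N)
    A hA r hr hrℓ _ h1 h2 h3
  exact hP ℓ N hint r hr D hD0 hprin h4

/-! ## The three properties of `redKerPic` -/

section Package

variable {N : ℕ} [NeZero N] {A : ValuationSubring Kbar}

/-- `g D - D ∈ redKer` if `g` does not move the reduction of a place. -/
theorem smul_sub_mem_redKer (g : SemilinearAut Kbar (FF N))
    (h : ∀ v : Place Kbar (FF N), SameRed A (g • v) v) (D : Divisor Kbar (FF N)) :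
    g • D - D ∈ redKer N A := by
  induction D using Finsupp.induction_linear with
  | zero => rw [smul_zero, sub_zero]; exact (redKer N A).zero_mem
  | add D E hD hE =>
    rw [smul_add, add_sub_add_comm]
    exact (redKer N A).add_mem hD hE
  | single v n =>
    rw [SemilinearAut.smul_single]
    have e : (Finsupp.single (g • v) n - Finsupp.single v n : Divisor Kbar (FF N))
        = n • (Finsupp.single (g • v) (1 : ℤ) - Finsupp.single v (1 : ℤ)) := by
      rw [smul_sub, Finsupp.smul_single, Finsupp.smul_single, smul_eq_mul, mul_one]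
    rw [e]
    exact (redKer N A).zsmul_mem (single_sub_single_mem_redKer (h v)) n

/-- torsion of order prime to `ℓ` in `redKer`, divisor form, every exponent. -/
theorem torsionInj_all (hTI : IfaceTorsionInj N) {ℓ : ℕ} (hℓ : ℓ.Prime) (hℓN : ¬ ℓ ∣ N)
    (hA : A.LiesOverPrime ℓ) (m : ℕ) : ¬ ℓ ∣ m → ∀ D : Divisor Kbar (FF N),
      D ∈ redKer N A → D ∈ Divisor.degZero (K := Kbar) (F := FF N) →
      (m • D).IsPrincipal → D.IsPrincipal := by
  induction m using induction_on_primes with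
  | zero => intro h; exact absurd (dvd_zero ℓ) h
  | one => intro _ D _ _ h; rwa [one_smul] at h
  | prime_mul r a hr ih =>
    intro hm D hDred hD0 hprin
    have hrℓ : r ≠ ℓ := by
      rintro rfl
      exact hm (dvd_mul_right _ _)
    have ha : ¬ ℓ ∣ a := fun h => hm (h.mul_left r)
    have h1 : (r • (a • D)).IsPrincipal := by rwa [smul_smul]
    have h2 : (a • D).IsPrincipal :=
      hTI ℓ hℓ hℓN A hA r hr hrℓ (a • D) ((redKer N A).nsmul_mem hDred a)
        ((Divisor.degZero (K := Kbar) (F := FF N)).nsmul_mem hD0 a) h1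
    exact ih ha D hDred hD0 h2

/-- the Eichler–Shimura divisor of `D` lies in `redKer`. -/
theorem kronecker_mem_redKer (hK : IfaceKronecker N) {ℓ : ℕ} (hℓ : ℓ.Prime) (hℓN : ¬ ℓ ∣ N)
    (hA : A.LiesOverPrime ℓ) {σ : GQ} (hσ : A.IsFrobeniusAt σ ℓ)
    (hα : haveI : NeZero ℓ := ⟨hℓ.ne_zero⟩; HeckeAlphaBarIntegral Kbar N ℓ)
    (hβ : haveI : NeZero ℓ := ⟨hℓ.ne_zero⟩; HeckeBetaBarIntegral Kbar N ℓ)
    [HasPrincipalDivisors Kbar (FF (N * ℓ))] (D : Divisor Kbar (FF N)) :
    haveI : NeZero ℓ := ⟨hℓ.ne_zero⟩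
    gal N σ • gal N σ • D - heckeDivBar hα hβ (gal N σ • D) + ℓ • D ∈ redKer N A := by
  haveI : NeZero ℓ := ⟨hℓ.ne_zero⟩
  induction D using Finsupp.induction_linear with
  | zero =>
    rw [smul_zero, smul_zero, map_zero, sub_zero, smul_zero, add_zero]
    exact (redKer N A).zero_mem
  | add D E hD hE =>
    rw [smul_add, smul_add, map_add, smul_add]
    have e : gal N σ • gal N σ • D + gal N σ • gal N σ • E
        - (heckeDivBar hα hβ (gal N σ • D) + heckeDivBar hα hβ (gal N σ • E))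
        + (ℓ • D + ℓ • E)
        = (gal N σ • gal N σ • D - heckeDivBar hα hβ (gal N σ • D) + ℓ • D)
          + (gal N σ • gal N σ • E - heckeDivBar hα hβ (gal N σ • E) + ℓ • E) := by
      abel
    rw [e]
    exact (redKer N A).add_mem hD hE
  | single v n =>
    have h0 := hK ℓ hℓ hℓN A hA σ hσ hα hβ v
    have h1 := (redKer N A).zsmul_mem h0 (-n)
    have e : gal N σ • gal N σ • (Finsupp.single v n : Divisor Kbar (FF N))
        - heckeDivBar hα hβ (gal N σ • (Finsupp.single v n : Divisor Kbar (FF N)))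
        + ℓ • (Finsupp.single v n : Divisor Kbar (FF N))
        = (-n) • (heckeDivBar hα hβ (Finsupp.single (gal N σ • v) (1 : ℤ))
          - Finsupp.single (gal N σ • gal N σ • v) (1 : ℤ)
          - (ℓ : ℤ) • Finsupp.single v (1 : ℤ)) := by
      have e1 : (Finsupp.single (gal N σ • v) n : Divisor Kbar (FF N))
          = n • Finsupp.single (gal N σ • v) (1 : ℤ) := by
        rw [Finsupp.smul_single, smul_eq_mul, mul_one]
      have e2 : (Finsupp.single (gal N σ • gal N σ • v) n : Divisor Kbar (FF N))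
          = n • Finsupp.single (gal N σ • gal N σ • v) (1 : ℤ) := by
        rw [Finsupp.smul_single, smul_eq_mul, mul_one]
      have e3 : ℓ • (Finsupp.single v n : Divisor Kbar (FF N))
          = n • ((ℓ : ℤ) • Finsupp.single v (1 : ℤ)) := by
        rw [Finsupp.smul_single, Finsupp.smul_single, Finsupp.smul_single, smul_eq_mul,
          smul_eq_mul, mul_one, nsmul_eq_mul, mul_comm]
      rw [SemilinearAut.smul_single, SemilinearAut.smul_single, e1, e2, e3, map_zsmul,
        neg_smul, smul_sub, smul_sub]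
      abel
    rw [e]
    exact h1

theorem redKerPackage_of (N : ℕ) [NeZero N] (hI : IfaceInertia N) (hK : IfaceKronecker N)
    (hH : IfaceHeckeInputs) (hTI : IfaceTorsionInj N) : RedKerPackage N := by
  intro ℓ hℓ hℓN A hA
  refine ⟨?_, ?_, ?_⟩
  · intro σ hσ x
    obtain ⟨D, rfl⟩ := Pic0.mk_surjective x
    refine ⟨SemilinearAut.degZeroSMulHom (gal N σ) D - D, ?_, rfl⟩
    exact smul_sub_mem_redKer (gal N σ) (hI ℓ hℓ hℓN A hA σ hσ) (D : Divisor Kbar (FF N))
  · intro σ hσ x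
    obtain ⟨D, rfl⟩ := Pic0.mk_surjective x
    haveI : NeZero ℓ := ⟨hℓ.ne_zero⟩
    obtain ⟨hα, hβ, hPD, hfin, hFI, hN⟩ := hH N ℓ
    haveI := hPD
    have hT : ∀ y : JZero N, heckeOperatorBar N ⟨ℓ, hℓ⟩ y = heckePic0Bar hα hβ hFI hfin hN y := by
      intro y
      rw [heckeOperatorBar_apply]
      exact congrArg (fun f => f y) (heckeOperatorAlong_eq hα hβ hFI hfin hN)
    refine ⟨SemilinearAut.degZeroSMulHom (gal N σ) (SemilinearAut.degZeroSMulHom (gal N σ) D)
      - Pic0.degZeroCorrespondence (heckeBetaBar Kbar N ℓ) (heckeAlphaBar Kbar N ℓ) hβ hα hFI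
          (SemilinearAut.degZeroSMulHom (gal N σ) D) + ℓ • D, ?_, ?_⟩
    · exact kronecker_mem_redKer hK hℓ hℓN hA hσ hα hβ (D : Divisor Kbar (FF N))
    · rw [hT]
      rfl
  · intro m hm x hx hmx
    obtain ⟨D, hD, rfl⟩ := hx
    rw [pic0_mk_eq_zero_iff]
    refine torsionInj_all hTI hℓ hℓN hA m hm D hD D.2 ?_
    have e : m • Pic0.mk D = Pic0.mk (m • D) := (map_nsmul (pic0MkHom N) m D).symm
    rw [e, pic0_mk_eq_zero_iff] at hmx
    exact hmx

end Package

/-! ## The target of P-GALREP from the package -/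

theorem nsmul_gal_smul_eq_zero {N : ℕ} (σ : GQ) (m : ℕ) {y : JZero N} (hy : m • y = 0) :
    m • (σ • y) = 0 := by
  have h := map_nsmul (DistribSMul.toAddMonoidHom (JZero N) σ) m y
  simp only [DistribSMul.toAddMonoidHom_apply] at h
  rw [← h, hy, smul_zero]

theorem eichlerShimuraTorsion_of_package (N p : ℕ) [NeZero N] (hpk : RedKerPackage N) :
    Fermat.Agent.S29.EichlerShimuraTorsion N p := by
  refine ⟨?_, ?_⟩
  · rintro ℓ hℓ hnd A hA σ hσ x ⟨n, hn⟩
    have hN : ¬ ℓ ∣ N := fun h => hnd (h.mul_right p)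
    have hp : ¬ ℓ ∣ p := fun h => hnd (h.mul_left N)
    obtain ⟨h1, -, h3⟩ := hpk ℓ hℓ hN A hA
    have h4 : p ^ n • (σ • x - x) = 0 := by
      rw [nsmul_sub, nsmul_gal_smul_eq_zero σ _ hn, hn, sub_zero]
    exact sub_eq_zero.1 (h3 (p ^ n) (fun h => hp (hℓ.dvd_of_dvd_pow h)) _ (h1 σ hσ x) h4)
  · rintro ℓ hℓ hnd A hA σ hσ x ⟨n, hn⟩
    have hN : ¬ ℓ ∣ N := fun h => hnd (h.mul_right p)
    have hp : ¬ ℓ ∣ p := fun h => hnd (h.mul_left N)
    obtain ⟨-, h2, h3⟩ := hpk ℓ hℓ hN A hA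
    have h5 : p ^ n • (σ • x) = 0 := nsmul_gal_smul_eq_zero σ _ hn
    have h4 : p ^ n • (σ • σ • x - heckeOperatorBar N ⟨ℓ, hℓ⟩ (σ • x) + ℓ • x) = 0 := by
      rw [nsmul_add, nsmul_sub, nsmul_gal_smul_eq_zero σ _ h5, ← map_nsmul, h5, map_zero,
        sub_zero, zero_add, ← mul_nsmul, mul_comm, mul_nsmul, hn, nsmul_zero]
    exact h3 (p ^ n) (fun h => hp (hℓ.dvd_of_dvd_pow h)) _ (h2 σ hσ x) h4

end Fermat.Agent.S37
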