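import Fermat.Agent.S37.Skeleton
import Fermat.Agent.Bridge.Frobenius

/-!
# P-RED: S37 from `RedKerPackage`

`specialization_of_package`: the three properties of `redKerPic` (inertia moves points inside
`redKerPic`, the Eichler–Shimura element lands in `redKerPic`, `redKerPic` has no torsion prime
to `ℓ`) give the frozen statement S37.  The specialisation is `J → J / M₀`, `M₀` the subgroup
generated by `(i - 1) x` and `(σ₀² - T_ℓ σ₀ + ℓ) x` for one Frobenius element `σ₀`.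
-/

set_option autoImplicit false

open AlgebraicCurve ModularCurve

noncomputable section

namespace Fermat.Agent.S37

/-- the inertia group is normalised by the decomposition group. -/
theorem conj_mem_inertiaSubgroupIn {A : ValuationSubring Kbar} {g i : GQ}
    (hg : g ∈ A.decompositionSubgroup ℚ) (hi : i ∈ A.inertiaSubgroupIn ℚ) :
    g * i * g⁻¹ ∈ A.inertiaSubgroupIn ℚ := by
  obtain ⟨i', hi', rfl⟩ := hi
  refine ⟨(⟨g, hg⟩ : A.decompositionSubgroup ℚ) * i' * (⟨g, hg⟩ : A.decompositionSubgroup ℚ)⁻¹,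
    ?_, rfl⟩
  have hn : (A.inertiaSubgroup ℚ).Normal := by
    unfold ValuationSubring.inertiaSubgroup
    exact MonoidHom.normal_ker _
  exact hn.conj_mem i' hi' ⟨g, hg⟩

section Core

variable {J : Type} [AddCommGroup J] [Module HeckeAlg J] [DistribMulAction GQ J]
  [SMulCommClass GQ HeckeAlg J]

/-- the generators of the kernel of the specialisation. -/
def specGens (J : Type) [AddCommGroup J] [Module HeckeAlg J] [DistribMulAction GQ J]
    (A : ValuationSubring Kbar) (ℓ : Nat.Primes) (σ₀ : GQ) : Set J :=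
  {y | ∃ i ∈ A.inertiaSubgroupIn ℚ, ∃ x : J, y = i • x - x} ∪
    {y | ∃ x : J, y = σ₀ • σ₀ • x - heckeGen ℓ • (σ₀ • x) + (ℓ : ℕ) • x}

/-- the kernel of the specialisation, as a Hecke submodule. -/
def specKer (J : Type) [AddCommGroup J] [Module HeckeAlg J] [DistribMulAction GQ J]
    [SMulCommClass GQ HeckeAlg J]
    (A : ValuationSubring Kbar) (ℓ : Nat.Primes) (σ₀ : GQ) : Submodule HeckeAlg J where
  carrier := AddSubgroup.closure (specGens J A ℓ σ₀)
  zero_mem' := (AddSubgroup.closure _).zero_mem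
  add_mem' := fun ha hb => (AddSubgroup.closure _).add_mem ha hb
  smul_mem' := by
    intro T x hx
    have hx' : x ∈ AddSubgroup.closure (specGens J A ℓ σ₀) := hx
    clear hx
    show T • x ∈ AddSubgroup.closure (specGens J A ℓ σ₀)
    induction hx' using AddSubgroup.closure_induction with
    | mem y hy =>
      apply AddSubgroup.subset_closure
      rcases hy with ⟨i, hi, z, rfl⟩ | ⟨z, rfl⟩
      · left
        refine ⟨i, hi, T • z, ?_⟩
        rw [smul_sub, smul_comm i T z]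
      · right
        refine ⟨T • z, ?_⟩
        rw [smul_add, smul_sub, smul_comm σ₀ T z, smul_comm σ₀ T (σ₀ • z),
          smul_comm T (heckeGen ℓ) (σ₀ • z), smul_comm T (ℓ : ℕ) z]
    | zero => rw [smul_zero]; exact (AddSubgroup.closure _).zero_mem
    | add y z _ _ hy hz => rw [smul_add]; exact (AddSubgroup.closure _).add_mem hy hz
    | neg y _ hy => rw [smul_neg]; exact (AddSubgroup.closure _).neg_mem hy

theorem mem_specKer {A : ValuationSubring Kbar} {ℓ : Nat.Primes} {σ₀ : GQ} {x : J} :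
    x ∈ specKer J A ℓ σ₀ ↔ x ∈ AddSubgroup.closure (specGens J A ℓ σ₀) :=
  Iff.rfl

theorem specKer_le {A : ValuationSubring Kbar} {ℓ : Nat.Primes} {σ₀ : GQ} {R : AddSubgroup J}
    (h1 : ∀ σ ∈ A.inertiaSubgroupIn ℚ, ∀ x : J, σ • x - x ∈ R)
    (h2 : ∀ x : J, σ₀ • σ₀ • x - heckeGen ℓ • (σ₀ • x) + (ℓ : ℕ) • x ∈ R)
    {x : J} (hx : x ∈ specKer J A ℓ σ₀) : x ∈ R := by
  have h : AddSubgroup.closure (specGens J A ℓ σ₀) ≤ R := by
    rw [AddSubgroup.closure_le]
    rintro y (⟨i, hi, x, rfl⟩ | ⟨x, rfl⟩)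
    · exact h1 i hi x
    · exact h2 x
  exact h hx

/-- the kernel of the specialisation is stable under the chosen Frobenius element. -/
theorem smul_mem_specKer {A : ValuationSubring Kbar} {ℓ : Nat.Primes} {σ₀ : GQ}
    (hσ₀ : σ₀ ∈ A.decompositionSubgroup ℚ) {x : J} (hx : x ∈ specKer J A ℓ σ₀) :
    σ₀ • x ∈ specKer J A ℓ σ₀ := by
  have hx' : x ∈ AddSubgroup.closure (specGens J A ℓ σ₀) := hx
  clear hx
  show σ₀ • x ∈ AddSubgroup.closure (specGens J A ℓ σ₀)
  induction hx' using AddSubgroup.closure_induction with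
  | mem y hy =>
    apply AddSubgroup.subset_closure
    rcases hy with ⟨i, hi, z, rfl⟩ | ⟨z, rfl⟩
    · left
      refine ⟨σ₀ * i * σ₀⁻¹, conj_mem_inertiaSubgroupIn hσ₀ hi, σ₀ • z, ?_⟩
      rw [smul_sub, mul_smul, mul_smul, inv_smul_smul]
    · right
      refine ⟨σ₀ • z, ?_⟩
      rw [smul_add, smul_sub, smul_comm σ₀ (heckeGen ℓ) (σ₀ • z), smul_comm σ₀ (ℓ : ℕ) z]
  | zero => rw [smul_zero]; exact (AddSubgroup.closure _).zero_mem
  | add y z _ _ hy hz => rw [smul_add]; exact (AddSubgroup.closure _).add_mem hy hz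
  | neg y _ hy => rw [smul_neg]; exact (AddSubgroup.closure _).neg_mem hy

/-- **Abstract form of S37.**  If `R` is a subgroup of `J` such that inertia moves points inside
`R`, the Eichler–Shimura element of every Frobenius element maps `J` into `R`, and `R` has no
`p`-power torsion, then a specialisation exists. -/
theorem specialization_core (p ℓ : ℕ) (hℓ : ℓ.Prime) (A : ValuationSubring Kbar)
    (hA : A.LiesOverPrime ℓ) (R : AddSubgroup J)
    (h1 : ∀ σ ∈ A.inertiaSubgroupIn ℚ, ∀ x : J, σ • x - x ∈ R)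
    (h2 : ∀ σ : GQ, A.IsFrobeniusAt σ ℓ → ∀ x : J,
      σ • σ • x - heckeGen ⟨ℓ, hℓ⟩ • (σ • x) + ℓ • x ∈ R)
    (h3 : ∀ x ∈ R, (∃ n : ℕ, p ^ n • x = 0) → x = 0) :
    ∃ (J' : Type) (_ : AddCommGroup J') (_ : Module HeckeAlg J') (sp : J →+ J')
      (F : J' →+ J'),
      IsSpecialization (K := ℚ) p J J' A ℓ sp F ∧ SpecialFibreRelation J' ℓ hℓ F := by
  obtain ⟨σ₀, hσ₀⟩ := Fermat.Agent.Bridge.existsFrob A ℓ hℓ hA
  have hσD : σ₀ ∈ A.decompositionSubgroup ℚ := hσ₀.1
  set M₀ : Submodule HeckeAlg J := specKer J A ⟨ℓ, hℓ⟩ σ₀ with hM₀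
  have hle : ∀ {x : J}, x ∈ M₀ → x ∈ R := fun {x} hx => specKer_le h1 (h2 σ₀ hσ₀) hx
  let f : J →ₗ[HeckeAlg] J := DistribSMul.toLinearMap HeckeAlg J σ₀
  have hf : M₀ ≤ M₀.comap f := fun x hx => smul_mem_specKer hσD hx
  refine ⟨J ⧸ M₀, inferInstance, inferInstance, M₀.mkQ.toAddMonoidHom,
    (M₀.mapQ M₀ f hf).toAddMonoidHom, ⟨?_, ?_, ?_, ?_⟩, ?_⟩
  · intro T x
    exact M₀.mkQ.map_smul T x
  · intro σ hσ x
    show M₀.mkQ (σ • x) = M₀.mkQ x
    rw [← sub_eq_zero, ← map_sub, Submodule.mkQ_apply, Submodule.Quotient.mk_eq_zero]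
    exact AddSubgroup.subset_closure (Or.inl ⟨σ, hσ, x, rfl⟩)
  · intro σ hσ x
    show M₀.mkQ (σ • x) = M₀.mapQ M₀ f hf (M₀.mkQ x)
    rw [Submodule.mkQ_apply, Submodule.mkQ_apply, Submodule.mapQ_apply,
      Submodule.Quotient.eq]
    have hι : σ₀⁻¹ * σ ∈ A.inertiaSubgroupIn ℚ := Fermat.Agent.Bridge.frobUnique A ℓ σ₀ σ hσ₀ hσ
    have h4 : (σ₀⁻¹ * σ) • x - x ∈ M₀ :=
      AddSubgroup.subset_closure (Or.inl ⟨σ₀⁻¹ * σ, hι, x, rfl⟩)
    have h5 := smul_mem_specKer hσD h4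
    rw [smul_sub, smul_smul, mul_inv_cancel_left] at h5
    exact h5
  · intro x hx hsp
    have h6 : M₀.mkQ x = 0 := hsp
    rw [Submodule.mkQ_apply, Submodule.Quotient.mk_eq_zero] at h6
    exact h3 x (hle h6) hx
  · intro y
    obtain ⟨x, rfl⟩ := M₀.mkQ_surjective y
    show M₀.mapQ M₀ f hf (M₀.mapQ M₀ f hf (M₀.mkQ x))
      - heckeGen ⟨ℓ, hℓ⟩ • M₀.mapQ M₀ f hf (M₀.mkQ x) + ℓ • M₀.mkQ x = 0
    rw [Submodule.mkQ_apply, Submodule.mapQ_apply, Submodule.mapQ_apply,
      ← Submodule.Quotient.mk_smul, ← Submodule.Quotient.mk_smul, ← Submodule.Quotient.mk_sub,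
      ← Submodule.Quotient.mk_add, Submodule.Quotient.mk_eq_zero]
    exact AddSubgroup.subset_closure (Or.inr ⟨x, rfl⟩)

end Core

/-- **S37 from the reduction package.** -/
theorem specialization_of_package (N p : ℕ) [NeZero N] (hcomm : HeckeOperatorsCommuteBar N)
    (hpk : RedKerPackage N) :
    letI := heckeModuleBar N
    ∀ (_ : SMulCommClass GQ HeckeAlg (JZero N)),
      SpecializationExists (K := ℚ) (L := Kbar) N p (JZero N) := by
  let _ := heckeModuleBar N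
  intro hsc ℓ hℓ hnd A hA
  have hN : ¬ ℓ ∣ N := fun h => hnd (h.mul_right p)
  have hp : ¬ ℓ ∣ p := fun h => hnd (h.mul_left N)
  obtain ⟨h1, h2, h3⟩ := hpk ℓ hℓ hN A hA
  refine specialization_core p ℓ hℓ A hA (redKerPic N A) h1 ?_ ?_
  · intro σ hσ x
    rw [heckeModuleBar_heckeGen_smul hcomm]
    exact h2 σ hσ x
  · rintro x hx ⟨n, hn⟩
    exact h3 (p ^ n) (fun h => hp (hℓ.dvd_of_dvd_pow h)) x hx hn

end Fermat.Agent.S37
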