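import Fermat.Agent.S37.Defs
import Fermat.Agent.S29.Skeleton

/-!
# P-RED (S37, S18, gate of P-GALREP): frozen interface skeleton

Architect: helper37.  Every declaration is a `def … : Prop`; nothing is assumed.
Blueprint: findings stmt='S37' kind='blueprint' (v2).  Task table: `red_tasks`.

Notation: `F_M = FF M`, `A` a valuation subring of `ℚ̄` over the prime `ℓ`, `k = A/𝔪_A`,
`R_fin = modelFin M A`, `R_inf = modelInf M A` (normal model, two charts), `SameRed A v w`
(same closed point of the model), `redKer M A` (divisors generated by `v - w`, `SameRed A v w`).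

Dependency graph of the assembly:

* `EichlerShimuraTorsion N p`, `S37` ⇐ `IfaceInertia`, `IfaceKronecker`, `IfaceHeckeInputs`,
  `IfaceTorsionInj` (+ existence and uniqueness of Frobenius elements, landed in `Bridge`).
* `IfaceTorsionInj N` ⇐ `IfaceTransferRed`, `IfacePullbackInj`, `IfaceTorsionInjGood`.
* `IfaceTorsionInjGood` ⇐ `IfaceSmooth`, `IfaceBaseChange` (+ local analysis, cyclic covers).
* `IfaceInertia`, `IfaceKronecker` ⇐ `IfaceBaseChange`, `IfaceMatch`.
-/

set_option autoImplicit false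

open AlgebraicCurve ModularCurve IntermediateField

noncomputable section

namespace Fermat.Agent.S37

/-! ## Shared lemmas -/

/-- the monic polynomials with roots `a i`, resp. `b i`, are congruent modulo `𝔪_A`. -/
def RootsCong (A : ValuationSubring Kbar) {n : ℕ} (a b : Fin n → Kbar) : Prop :=
  ∀ m : ℕ, ((∏ i, (Polynomial.X - Polynomial.C (a i))).coeff m -
    (∏ i, (Polynomial.X - Polynomial.C (b i))).coeff m) ∈ A.nonunits

/-- the values of `f` at the places `v i`, `w i` exist in `A` and the two families of values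
are congruent (as multisets) modulo `𝔪_A`. -/
def ValuesCong {M : ℕ} (A : ValuationSubring Kbar) {n : ℕ} (v w : Fin n → Place Kbar (FF M))
    (f : FF M) : Prop :=
  ∃ a b : Fin n → Kbar,
    (∀ i, a i ∈ A ∧ ValueAt (v i) f (a i)) ∧ (∀ i, b i ∈ A ∧ ValueAt (w i) f (b i)) ∧
      RootsCong A a b

/-- **MATCH.**  Two families of places, all finite (resp. all non-finite), such that for every
`f` in the chart the polynomials `∏ (T - f(v i))` and `∏ (T - f(w i))` are congruent modulo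
`𝔪_A`, differ by an element of `redKer`. -/
def IfaceMatch (M : ℕ) [NeZero M] : Prop :=
  ∀ (A : ValuationSubring Kbar) (n : ℕ) (v w : Fin n → Place Kbar (FF M)),
    ((∀ i, IsFinAt A (v i)) ∧ (∀ i, IsFinAt A (w i)) ∧
        ∀ f ∈ modelFin M A, ValuesCong A v w f) ∨
      ((∀ i, ¬ IsFinAt A (v i)) ∧ (∀ i, ¬ IsFinAt A (w i)) ∧
        ∀ f ∈ modelInf M A, ValuesCong A v w f) →
    (∑ i, (Finsupp.single (v i) (1 : ℤ) - Finsupp.single (w i) (1 : ℤ))) ∈ redKer M A

/-- **BC (base change of the normal model).**  For `ℓ ∤ M` the chart rings over `A` are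
generated, as rings, by the constants in `A` and the functions with rational `q`-expansion. -/
def IfaceBaseChange (M : ℕ) [NeZero M] : Prop :=
  ∀ ℓ : ℕ, ℓ.Prime → ¬ ℓ ∣ M → ∀ A : ValuationSubring Kbar, A.LiesOverPrime ℓ →
    modelFin M A ≤ Subring.closure
        ((fun a : Kbar => cst M a) '' (A : Set Kbar) ∪ {f | IsRat f ∧ f ∈ modelFin M A}) ∧
    modelInf M A ≤ Subring.closure
        ((fun a : Kbar => cst M a) '' (A : Set Kbar) ∪ {f | IsRat f ∧ f ∈ modelInf M A})

/-! ## Level 0: consumed by the assembly -/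

/-- **GAL-I.**  Inertia does not move the reduction of a point. -/
def IfaceInertia (N : ℕ) [NeZero N] : Prop :=
  ∀ ℓ : ℕ, ℓ.Prime → ¬ ℓ ∣ N → ∀ A : ValuationSubring Kbar, A.LiesOverPrime ℓ →
    ∀ σ ∈ A.inertiaSubgroupIn ℚ, ∀ v : Place Kbar (FF N), SameRed A (gal N σ • v) v

/-- **HK.**  The inputs which make `heckeOperatorAlong` the genuine Hecke correspondence. -/
def IfaceHeckeInputs : Prop :=
  ∀ (N ℓ : ℕ) [NeZero N] [NeZero ℓ], HeckeInputsAlong Kbar N ℓ

/-- **KR (Kronecker congruence on divisors).**  For a Frobenius element `σ` at `A` over `ℓ ∤ N`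
and every place `v`: `T_ℓ (σ v) - σ² v - ℓ v ∈ redKer`. -/
def IfaceKronecker (N : ℕ) [NeZero N] : Prop :=
  ∀ (ℓ : ℕ) (hℓ : ℓ.Prime), ¬ ℓ ∣ N →
    ∀ A : ValuationSubring Kbar, A.LiesOverPrime ℓ → ∀ σ : GQ, A.IsFrobeniusAt σ ℓ →
    haveI : NeZero ℓ := ⟨hℓ.ne_zero⟩
    ∀ (hα : HeckeAlphaBarIntegral Kbar N ℓ) (hβ : HeckeBetaBarIntegral Kbar N ℓ)
      [HasPrincipalDivisors Kbar (FF (N * ℓ))] (v : Place Kbar (FF N)),
      heckeDivBar hα hβ (Finsupp.single (gal N σ • v) (1 : ℤ))
        - Finsupp.single (gal N σ • gal N σ • v) (1 : ℤ) - (ℓ : ℤ) • Finsupp.single v (1 : ℤ)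
        ∈ redKer N A

/-- **TI.**  The kernel of reduction contains no torsion of prime order `r ≠ ℓ`
(divisor form). -/
def IfaceTorsionInj (N : ℕ) [NeZero N] : Prop :=
  ∀ ℓ : ℕ, ℓ.Prime → ¬ ℓ ∣ N → ∀ A : ValuationSubring Kbar, A.LiesOverPrime ℓ →
    ∀ r : ℕ, r.Prime → r ≠ ℓ → ∀ D : Divisor Kbar (FF N),
      D ∈ redKer N A → D ∈ Divisor.degZero (K := Kbar) (F := FF N) →
      (r • D).IsPrincipal → D.IsPrincipal

/-! ## Level 1: transfer to a good level -/

/-- **TRK-a (conservation of number).**  Pull-back of divisors along `F_N ⊆ F_M` maps `redKer`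
into `redKer`. -/
def IfaceTransferRed : Prop :=
  ∀ (N M : ℕ) [NeZero N] [NeZero M] (h : N ∣ M) (A : ValuationSubring Kbar)
    (hint : (degen h).toRingHom.IsIntegral) [HasPrincipalDivisors Kbar (FF M)]
    (D : Divisor Kbar (FF N)), D ∈ redKer N A →
      Divisor.pullbackAlong (degen h) hint D ∈ redKer M A

/-- **TRK-b.**  Pull-back from level `N` to the good level above `N` is injective on classes
killed by a prime `r` (divisor form). -/
def IfacePullbackInj : Prop :=
  ∀ (ℓ N : ℕ) [NeZero N] (hint : (degen (dvd_goodLevel ℓ N)).toRingHom.IsIntegral)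
    [HasPrincipalDivisors Kbar (FF (goodLevel ℓ N))]
    (r : ℕ), r.Prime → ∀ D : Divisor Kbar (FF N),
      D ∈ Divisor.degZero (K := Kbar) (F := FF N) → (r • D).IsPrincipal →
      (Divisor.pullbackAlong (degen (dvd_goodLevel ℓ N)) hint D).IsPrincipal →
      D.IsPrincipal

/-- **CH0 (characteristic zero facts about the degeneracy inclusions).** -/
def IfaceDegenInputs : Prop :=
  ∀ (N M : ℕ) [NeZero N] [NeZero M] (h : N ∣ M),
    ∃ (hint : (degen h).toRingHom.IsIntegral) (_ : HasPrincipalDivisors Kbar (FF M)),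
      FundamentalIdentityAlong Kbar (degen h) hint

/-- **TI at a good level.** -/
def IfaceTorsionInjGood : Prop :=
  ∀ (ℓ : ℕ), ℓ.Prime → ∀ (M : ℕ) [NeZero M], ¬ ℓ ∣ M → auxLevel ℓ ∣ M →
    ∀ A : ValuationSubring Kbar, A.LiesOverPrime ℓ →
    ∀ r : ℕ, r.Prime → r ≠ ℓ → ∀ D : Divisor Kbar (FF M),
      D ∈ redKer M A → D ∈ Divisor.degZero (K := Kbar) (F := FF M) →
      (r • D).IsPrincipal → D.IsPrincipal

/-! ## Level 2: geometry of the model at a good level -/

/-- **SM (smoothness at a good level).**  Both charts of the special fibre are Dedekind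
domains. -/
def IfaceSmooth : Prop :=
  ∀ (ℓ : ℕ), ℓ.Prime → ∀ (M : ℕ) [NeZero M], ¬ ℓ ∣ M → auxLevel ℓ ∣ M →
    ∀ A : ValuationSubring Kbar, A.LiesOverPrime ℓ →
      IsDedekindDomain (modelFin M A ⧸ maxExt A (modelFin M A)) ∧
      IsDedekindDomain (modelInf M A ⧸ maxExt A (modelInf M A))

/-! ## Targets -/

/-- the three properties of `redKerPic` from which `S37` and `EichlerShimuraTorsion` follow. -/
def RedKerPackage (N : ℕ) [NeZero N] : Prop :=
  ∀ (ℓ : ℕ) (hℓ : ℓ.Prime), ¬ ℓ ∣ N →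
    ∀ A : ValuationSubring Kbar, A.LiesOverPrime ℓ →
      (∀ σ ∈ A.inertiaSubgroupIn ℚ, ∀ x : JZero N, σ • x - x ∈ redKerPic N A) ∧
      (∀ σ : GQ, A.IsFrobeniusAt σ ℓ → ∀ x : JZero N,
        σ • σ • x - heckeOperatorBar N ⟨ℓ, hℓ⟩ (σ • x) + ℓ • x ∈ redKerPic N A) ∧
      (∀ m : ℕ, ¬ ℓ ∣ m → ∀ x ∈ redKerPic N A, m • x = 0 → x = 0)

/-- target for P-GALREP. -/
def TargetTorsion : Prop :=
  ∀ (N p : ℕ) [NeZero N], Fermat.Agent.S29.EichlerShimuraTorsion N p

end Fermat.Agent.S37
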