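import Fermat.Agent.S37.Wiring
import Fermat.Agent.Red.TransferRedFinal
import Fermat.Agent.Red.HKComm.Main

/-!
# P-RED: wiring, second layer

With `NORMLOC` and `HK-COMM` landed, S37 depends on `GateGood`, `IfaceNormalize`,
`IfaceBaseChange N` and `IfaceKronecker N` only.
-/

set_option autoImplicit false

open AlgebraicCurve ModularCurve

noncomputable section

namespace Fermat.Agent.S37

/-- `TI` at every level, from `GateGood` and `NORMALIZE`. -/
theorem torsionInj_of_gateGood_normalize (hGG : GateGood) (hNz : IfaceNormalize)
    (N : ℕ) [NeZero N] : IfaceTorsionInj N :=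
  torsionInj_of Fermat.Agent.Red.TRK.ifaceTransferRed
    Fermat.Agent.Red.Desc.ifacePullbackInj Fermat.Agent.Red.CH0.ifaceDegenInputs
    (torsionInjGood_of hGG hNz) N

/-- the reduction package from the four open interfaces. -/
theorem redKerPackage_of_four (hGG : GateGood) (hNz : IfaceNormalize) (N : ℕ) [NeZero N]
    (hBC : IfaceBaseChange N) (hK : IfaceKronecker N) : RedKerPackage N :=
  redKerPackage_of N (ifaceInertia_of N hBC) hK
    Fermat.Agent.Red.HKInputsIface.h43_ifaceHeckeInputs
    (torsionInj_of_gateGood_normalize hGG hNz N)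

/-- target (C): the frozen statement S37 from the four open interfaces. -/
theorem s37_of_four (hGG : GateGood) (hNz : IfaceNormalize) (N p : ℕ) [NeZero N]
    (hBC : IfaceBaseChange N) (hK : IfaceKronecker N)
    (hcomm : HeckeOperatorsCommuteBar N) :
    letI := heckeModuleBar N
    ∀ (_ : SMulCommClass GQ HeckeAlg (JZero N)),
      SpecializationExists (K := ℚ) (L := Kbar) N p (JZero N) :=
  specialization_of_package N p hcomm (redKerPackage_of_four hGG hNz N hBC hK)

end Fermat.Agent.S37
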