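import Fermat.Agent.Red.GateGoodOf
import Fermat.Agent.Red.GGChartAsm
import Fermat.Agent.Red.ModelO.FinWrap
import Fermat.Agent.Red.ModelO.Generic85
import Fermat.Agent.Red.H67LocalUnifGG
import Fermat.Agent.Red.Nz.Final
import Fermat.Agent.Red.KR.OfMEA
import Fermat.Agent.Red.KR.MEAlpha
import Fermat.Agent.Red.BC.Main
import Fermat.Agent.S37.Wiring2

/-!
# P-RED, final wiring (helper37): everything from `IfaceSmooth`

All inputs of the pillar P-RED except the smoothness interface `IfaceSmooth` are landed; this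
file wires them:

* `h37_ifaceGatePieces_of_smooth : IfaceSmooth → GG.IfaceGatePieces`
* `h37_gateGood_of_smooth : IfaceSmooth → GateGood`
* `h37_ifaceNormalize_of_smooth : IfaceSmooth → IfaceNormalize`
* `h37_ifaceKronecker : IfaceKronecker N` (unconditional)
* `h37_s37_of_smooth` : the statement S37 from `IfaceSmooth`.
-/

set_option autoImplicit false

open AlgebraicCurve ModularCurve

noncomputable section

namespace Fermat.Agent.S37

open Fermat.Agent.Red Fermat.Agent.Red.ModelO

/-- the pieces of the gate, from smoothness. -/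
theorem h37_ifaceGatePieces_of_smooth (hSM : IfaceSmooth) : GG.IfaceGatePieces := by
  intro ℓ hℓ M _ hM haux A hA
  have hC₀ : GG.IfaceChart M A (jB M) := GG.ifaceChart_fin hℓ hM hA
  have hC₁ : GG.IfaceChart M A (jB M)⁻¹ := GG.ifaceChart_inf hℓ hM hA
  exact ⟨⟨hC₀, hC₁⟩, h85_ifaceFinite_fin hℓ hM hA,
    ⟨h85_ifaceSection_fin hℓ hM hA, h85_ifaceSection_inf hℓ hM hA⟩,
    ⟨h85_ifaceGeneric_of_chart hℓ A hA _ hC₀, h85_ifaceGeneric_of_chart hℓ A hA _ hC₁⟩,
    ⟨GG.h67_ifaceLocalUnif_fin M A hSM hℓ hM haux hA,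
      GG.h67_ifaceLocalUnif_inf M A hSM hℓ hM haux hA⟩⟩

/-- the gate at the good levels, from smoothness. -/
theorem h37_gateGood_of_smooth (hSM : IfaceSmooth) : GateGood :=
  GG.gateGood_of_pieces (h37_ifaceGatePieces_of_smooth hSM)

/-- NORMALIZE, from smoothness. -/
theorem h37_ifaceNormalize_of_smooth (hSM : IfaceSmooth) : IfaceNormalize :=
  Nz.ifaceNormalize_of_pieces (h37_ifaceGatePieces_of_smooth hSM)

/-- the Kronecker interface, unconditionally. -/
theorem h37_ifaceKronecker (N : ℕ) [NeZero N] : IfaceKronecker N :=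
  KR.ifaceKronecker_of_meAlpha KR.meAlpha N

/-- **the statement S37, from smoothness.** -/
theorem h37_s37_of_smooth (hSM : IfaceSmooth) (N p : ℕ) [NeZero N]
    (hcomm : HeckeOperatorsCommuteBar N) :
    letI := heckeModuleBar N
    ∀ (_ : SMulCommClass GQ HeckeAlg (JZero N)),
      SpecializationExists (K := ℚ) (L := Kbar) N p (JZero N) :=
  s37_of_four (h37_gateGood_of_smooth hSM) (h37_ifaceNormalize_of_smooth hSM) N p
    (BC.ifaceBaseChange N) (h37_ifaceKronecker N) hcomm

end Fermat.Agent.S37
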