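import Fermat.Agent.S37.AsmSpec
import Fermat.Agent.S37.Assembly
import Fermat.Agent.S37.Inertia
import Fermat.Agent.Red.GateAll
import Fermat.Agent.Red.HKInputsIface
import Fermat.Agent.Red.TransferRed
import Fermat.Agent.Red.Desc.Final
import Fermat.Agent.Red.EstI
import Fermat.Agent.Red.EST.Assembly

/-!
# P-RED: wiring of the landed interfaces

Everything below is stated in terms of the interfaces which are still open:

* `GateGood` (geometric heart: SM + LOCAL + MODEL),
* `IfaceNormalize`, `IfaceBaseChange`, `IfaceKronecker`, `NormLocStatement` (only for S37),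
* `IfaceCongFrobenius` (only for `EichlerShimuraTorsion`).
-/

set_option autoImplicit false

open AlgebraicCurve ModularCurve

noncomputable section

namespace Fermat.Agent.S37

/-- the gate at every level from the gate at good levels. -/
theorem gate_of_gateGood (hGG : GateGood) (N : ℕ) [NeZero N] : Gate N :=
  Fermat.Agent.Red.GateAll.gate_of_gatePrime N
    (Fermat.Agent.Red.GateAll.gatePrime_of hGG Fermat.Agent.Red.Desc.ifaceGateDescent N)

/-- target (A): Eichler–Shimura on torsion, from `GateGood` and the Kronecker congruence in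
function form. -/
theorem eichlerShimuraTorsion_of_gateGood (hGG : GateGood) (N p : ℕ) [NeZero N]
    (hF : IfaceCongFrobenius N) : Fermat.Agent.S29.EichlerShimuraTorsion N p :=
  Fermat.Agent.Red.EST.eichlerShimuraTorsion_of' N p (gate_of_gateGood hGG N)
    (Fermat.Agent.Red.EstI.ifaceCongInertia N) hF

/-- `TI` at every level, from `GateGood`, `NORMALIZE` and `NORMLOC`. -/
theorem torsionInj_of_gateGood (hGG : GateGood) (hNz : IfaceNormalize)
    (hNL : Fermat.Agent.Red.TRK.NormLocStatement) (N : ℕ) [NeZero N] : IfaceTorsionInj N :=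
  torsionInj_of (Fermat.Agent.Red.TRK.ifaceTransferRed_of hNL)
    Fermat.Agent.Red.Desc.ifacePullbackInj Fermat.Agent.Red.CH0.ifaceDegenInputs
    (torsionInjGood_of hGG hNz) N

/-- the reduction package from the open interfaces. -/
theorem redKerPackage_of_open (hGG : GateGood) (hNz : IfaceNormalize)
    (hNL : Fermat.Agent.Red.TRK.NormLocStatement) (N : ℕ) [NeZero N]
    (hBC : IfaceBaseChange N) (hK : IfaceKronecker N) : RedKerPackage N :=
  redKerPackage_of N (ifaceInertia_of N hBC) hK
    Fermat.Agent.Red.HKInputsIface.h43_ifaceHeckeInputs (torsionInj_of_gateGood hGG hNz hNL N)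

/-- target (C): the frozen statement S37 from the open interfaces. -/
theorem s37_of_open (hGG : GateGood) (hNz : IfaceNormalize)
    (hNL : Fermat.Agent.Red.TRK.NormLocStatement) (N p : ℕ) [NeZero N]
    (hBC : IfaceBaseChange N) (hK : IfaceKronecker N)
    (hcomm : HeckeOperatorsCommuteBar N) :
    letI := heckeModuleBar N
    ∀ (_ : SMulCommClass GQ HeckeAlg (JZero N)),
      SpecializationExists (K := ℚ) (L := Kbar) N p (JZero N) :=
  specialization_of_package N p hcomm (redKerPackage_of_open hGG hNz hNL N hBC hK)

end Fermat.Agent.S37
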